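import Fermat.Agent.S15.ATP.Conc.Defs

/-!
# S15-ATP, concrete layer, file `Line`: the chart `h₂⁻¹` of level `4` is the affine line with coordinate `x = s₄⁻¹`

`L` a field of characteristic zero, `R` a DVR of `L` in which `2` is a unit.  `t = h₂`, `s = s₄` (`C36/Unit/S4.lean`, `Case.lean` with
`c = BaseCase.two`; `GR.D.Top.CaseH2_baseFn : baseFn K Hauptmodul.h2 = Haupt.h2 K`):
`s² = t (s + 16)` (`BaseCase.s_pow`), `s (s + 16) = t(q²)` (`s_mul`), `j t² = (t + 256)³` (`j_mul_t`), `j(q²) t = (t + 16)³` (`jr_mul_t`).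

* `sF_rel`: `16 x² + x = t⁻¹` for `x = s⁻¹`.
* `FF4_le`: `FF L 4 = L(j, j(q²), j(q⁴))` and `j, j(q²) ∈ L(t) ⊆ L(s)`; `j(q⁴) = (j(q²))(q²) ∈ L(t(q²)) = L(s (s + 16))`
  (apply `qExpand L 2` to `jr_mul_t`).  So every element of `FF L 4` is a rational function of `s`, hence of `x`.
* `sinv_mem_chart`: `x² + x / 16 - t⁻¹ / 16 = 0` is monic over `R[t⁻¹]` (`16` is a unit of `R`).
* `line_gen`: `c ∈ chart R {t⁻¹}` is integral over `R[t⁻¹] ⊆ R[x]`; `R[x] ≅ R[X]` (`x` transcendental) is integrally closed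
  (UFD) with fraction field `L(x) = FF L 4`; so `c ∈ R[x]`.
* `line_prim`: `gredFun R (P(x)) = P̄(x̄)` (`gredFun_add/mul/pow`, `gredFun` of constants) and `x̄ = (s₄ mod ϖ)⁻¹` has order `1`
  in `k((q))`, so it is transcendental over `k` (`P̄(x̄)` has order `= ` the smallest `i` with `P̄_i ≠ 0`); `div_mem_gaussO_iff`.
-/

set_option autoImplicit false
set_option synthInstance.maxHeartbeats 400000

noncomputable section

namespace Fermat.Agent.S15.ATP

open Fermat.Agent.GR Fermat.Agent.GR.E Fermat.Agent.GR.D.Vert Fermat.Agent.GS Fermat.Agent.GS.Inst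
  ModularCurve Polynomial IntermediateField

/-- abstract form of `line_gen`: `R[x]` is integrally closed in its fraction field `L(x)`. -/
theorem Line_gen_abs {R L F : Type*} [CommRing R] [IsDomain R] [IsDiscreteValuationRing R]
    [Field L] [Algebra R L] [IsFractionRing R L] [Field F] [Algebra R F] [Algebra L F]
    [IsScalarTower R L F] (x τ c : F) (hx : Transcendental L x)
    (hτ : τ ∈ Algebra.adjoin R ({x} : Set F))
    (hc : IsIntegral (Algebra.adjoin R ({τ} : Set F)) c) (hcx : c ∈ L⟮x⟯) :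
    ∃ P : R[X], aeval x P = c := by
  have hle : Algebra.adjoin R ({τ} : Set F) ≤ Algebra.adjoin R ({x} : Set F) :=
    Algebra.adjoin_le (Set.singleton_subset_iff.2 hτ)
  have h1 : IsIntegral (Algebra.adjoin R ({x} : Set F)) c := by
    obtain ⟨p, hp, hpc⟩ := hc
    refine ⟨p.map (Subalgebra.inclusion hle).toRingHom, hp.map _, ?_⟩
    rw [eval₂_map]
    exact hpc
  obtain ⟨p, hp, hpc⟩ := (Fermat.Agent.S28.isIntegral_adjoin_singleton_iff x c).1 h1
  let _ := GR.D.glueAlgK0 (R := R) (L := L) x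
  have hfr : IsFractionRing R[X] L⟮x⟯ := GR.D.glue_isFractionRing_poly (R := R) x hx
  have hint : IsIntegral R[X] (⟨c, hcx⟩ : L⟮x⟯) := by
    refine ⟨p, hp, ?_⟩
    apply Subtype.val_injective
    have h2 := Polynomial.hom_eval₂ p (algebraMap R[X] L⟮x⟯) (L⟮x⟯.val.toRingHom)
      (⟨c, hcx⟩ : L⟮x⟯)
    change (L⟮x⟯.val.toRingHom) (eval₂ (algebraMap R[X] L⟮x⟯) (⟨c, hcx⟩ : L⟮x⟯) p) = 0
    rw [h2]
    exact hpc
  obtain ⟨P, hP⟩ := IsIntegrallyClosed.isIntegral_iff.1 hint
  exact ⟨P, congrArg Subtype.val hP⟩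

variable {L : Type} [Field L] [CharZero L]

theorem Line_coe_sF : ((sF L : FF L 4) : LaurentSeries L) = Fermat.Agent.C36.Unit.BaseCase.two.s L :=
  rfl

theorem Line_coe_tF : ((tF L : FF L 4) : LaurentSeries L) = Fermat.Agent.C36.Unit.BaseCase.two.t L :=
  GR.D.Top.CaseH2_baseFn L

theorem sF_ne_zero : sF L ≠ 0 := by
  intro h
  have h1 := Fermat.Agent.C36.Unit.BaseCase.two.s_order L
  rw [← Line_coe_sF, h] at h1
  simp at h1

theorem tF_ne_zero : tF L ≠ 0 := by
  intro h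
  have h1 := Fermat.Agent.C36.Unit.BaseCase.two.t_order L
  rw [← Line_coe_tF, h] at h1
  simp at h1

theorem Line_sq : sF L ^ 2 = tF L * (sF L + 16) := by
  apply Subtype.ext
  have h := Fermat.Agent.C36.Unit.BaseCase.two.s_pow L
  rw [← Line_coe_sF, ← Line_coe_tF] at h
  exact h

theorem sF_rel : 16 * (sF L)⁻¹ ^ 2 + (sF L)⁻¹ = (tF L)⁻¹ := by
  have hs := sF_ne_zero (L := L)
  have ht := tF_ne_zero (L := L)
  have h := Line_sq (L := L)
  field_simp
  linear_combination -h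

omit [CharZero L] in
theorem Line_FF4_le_adjoin : FF L 4 ≤ L⟮C36.Unit.BaseCase.two.s L⟯ := by
  set s := C36.Unit.BaseCase.two.s L with hs
  set t := C36.Unit.BaseCase.two.t L with ht
  set E : IntermediateField L (LaurentSeries L) := L⟮s⟯ with hE
  have hsE : s ∈ E := mem_adjoin_simple_self L s
  have h16 : (16 : LaurentSeries L) ∈ E := by exact_mod_cast _root_.natCast_mem E 16
  have h256 : (256 : LaurentSeries L) ∈ E := by exact_mod_cast _root_.natCast_mem E 256
  have hs_pow : s ^ 2 = t * (s + 16) := C36.Unit.BaseCase.two.s_pow L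
  have hs_mul : s * (s + 16) = qExpand L 2 t := C36.Unit.BaseCase.two.s_mul L
  have hj : jqModC L * t ^ 2 = (t + 256) ^ 3 := C36.Unit.BaseCase.two.j_mul_t L
  have hj2 : qExpand L 2 (jqModC L) * t = (t + 16) ^ 3 := C36.Unit.BaseCase.two.jr_mul_t L
  have ht0 : t ≠ 0 := by
    intro h
    have := C36.Unit.BaseCase.two.t_order L
    rw [← ht, h, HahnSeries.order_zero] at this
    omega
  have hs0 : s ≠ 0 := by
    intro h
    have := C36.Unit.BaseCase.two.s_order L
    rw [← hs, h, HahnSeries.order_zero] at this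
    omega
  have hs16 : s + 16 ≠ 0 := by
    intro h
    rw [h, mul_zero] at hs_pow
    exact hs0 ((pow_eq_zero_iff two_ne_zero).1 hs_pow)
  have htE : t ∈ E := by
    have : t = s ^ 2 / (s + 16) := by rw [eq_div_iff hs16]; exact hs_pow.symm
    rw [this]
    exact div_mem (pow_mem hsE 2) (add_mem hsE h16)
  have hT : qExpand L 2 t ∈ E := by
    rw [← hs_mul]
    exact mul_mem hsE (add_mem hsE h16)
  have hT0 : qExpand L 2 t ≠ 0 := by
    rw [← hs_mul]
    exact mul_ne_zero hs0 hs16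
  apply IntermediateField.adjoin_le_iff.mpr
  rintro x ⟨d, hne, hd, rfl⟩
  have hd4 : d ≤ 4 := Nat.le_of_dvd (by norm_num) hd
  have hd0 : d ≠ 0 := hne.out
  interval_cases d
  · exact absurd rfl hd0
  · show qExpand L 1 (jqModC L) ∈ E
    rw [qExpand_one_apply]
    have h1 : jqModC L = (t + 256) ^ 3 / t ^ 2 := by
      rw [eq_div_iff (pow_ne_zero _ ht0)]
      exact hj
    rw [h1]
    exact div_mem (pow_mem (add_mem htE h256) 3) (pow_mem htE 2)
  · show qExpand L 2 (jqModC L) ∈ E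
    have h1 : qExpand L 2 (jqModC L) = (t + 16) ^ 3 / t := by
      rw [eq_div_iff ht0]
      exact hj2
    rw [h1]
    exact div_mem (pow_mem (add_mem htE h16) 3) htE
  · exact absurd hd (by norm_num)
  · show qExpand L 4 (jqModC L) ∈ E
    have h2 : qExpand L 4 (jqModC L) = qExpand L 2 (qExpand L 2 (jqModC L)) := by
      rw [qExpand_qExpand]
    have h3 := congrArg (qExpand L 2) hj2
    rw [map_mul, map_pow, map_add, map_ofNat] at h3
    have h1 : qExpand L 4 (jqModC L) = (qExpand L 2 t + 16) ^ 3 / qExpand L 2 t := by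
      rw [eq_div_iff hT0, h2]
      exact h3
    rw [h1]
    exact div_mem (pow_mem (add_mem hT h16) 3) hT

/-- `FF L 4 = L(s₄)`. -/
theorem FF4_le (f : FF L 4) : f ∈ L⟮sF L⟯ := by
  have h1 : (f : LaurentSeries L) ∈ L⟮C36.Unit.BaseCase.two.s L⟯ := Line_FF4_le_adjoin f.2
  have h2 : (L⟮sF L⟯).map (FF L 4).val = L⟮C36.Unit.BaseCase.two.s L⟯ := by
    rw [adjoin_map, Set.image_singleton]
    rfl
  rw [← h2] at h1
  obtain ⟨g, hg, hgf⟩ := h1
  have : g = f := Subtype.ext hgf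
  rwa [← this]

variable {R : ValuationSubring L} [IsDiscreteValuationRing R]

theorem sinv_mem_chart (h2 : IsUnit ((2 : ℕ) : R)) :
    (sF L)⁻¹ ∈ chart R ({(tF L)⁻¹} : Set (FF L 4)) := by
  obtain ⟨u, hu⟩ := (h2.pow 4).exists_left_inv
  have hu' : u * 16 = 1 := by
    rw [← hu]
    norm_num
  rw [mem_chart]
  set B := Algebra.adjoin R ({(tF L)⁻¹} : Set (FF L 4)) with hB
  let τ : B := ⟨(tF L)⁻¹, Algebra.subset_adjoin rfl⟩
  refine ⟨X ^ 2 + (C (algebraMap R B u) * X + C (-(algebraMap R B u * τ))),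
    monic_X_pow_add (lt_of_le_of_lt degree_linear_le (by norm_num)), ?_⟩
  have h16 : algebraMap R (FF L 4) u * 16 = 1 := by
    have := congrArg (algebraMap R (FF L 4)) hu'
    rwa [map_mul, map_ofNat, map_one] at this
  have hτ : algebraMap B (FF L 4) τ = (tF L)⁻¹ := rfl
  have hu2 : algebraMap B (FF L 4) (algebraMap R B u) = algebraMap R (FF L 4) u := rfl
  simp only [eval₂_add, eval₂_pow, eval₂_X, eval₂_mul, eval₂_C, eval₂_neg, map_neg, map_mul, hτ, hu2]
  have hrel := sF_rel (L := L)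
  linear_combination (algebraMap R (FF L 4) u) * hrel - (sF L)⁻¹ ^ 2 * h16

omit [CharZero L] in
theorem Line_sinv_transcendental : Transcendental L (sF L)⁻¹ :=
  S24.transcendental_inv
    (Fermat.Agent.C36.Unit.BaseCase.two.sF_transcendental L (N := 4) dvd_rfl)

theorem line_gen (h2 : IsUnit ((2 : ℕ) : R)) (c : FF L 4)
    (hc : c ∈ chart R ({(tF L)⁻¹} : Set (FF L 4))) : ∃ P : R[X], aeval (sF L)⁻¹ P = c := by
  refine Line_gen_abs (L := L) (sF L)⁻¹ (tF L)⁻¹ c Line_sinv_transcendental ?_ hc ?_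
  · rw [← sF_rel]
    have hx : (sF L)⁻¹ ∈ Algebra.adjoin R ({(sF L)⁻¹} : Set (FF L 4)) :=
      Algebra.self_mem_adjoin_singleton R _
    have h16 : (16 : FF L 4) ∈ Algebra.adjoin R ({(sF L)⁻¹} : Set (FF L 4)) := by
      have := _root_.natCast_mem (Algebra.adjoin R ({(sF L)⁻¹} : Set (FF L 4))) 16
      exact_mod_cast this
    exact add_mem (mul_mem h16 (pow_mem hx 2)) hx
  · have hle : L⟮sF L⟯ ≤ L⟮(sF L)⁻¹⟯ := by
      rw [adjoin_simple_le_iff]
      have := inv_mem (mem_adjoin_simple_self L (sF L)⁻¹)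
      rwa [inv_inv] at this
    exact hle (FF4_le c)

theorem Line_s_eq_baseFn (K : Type*) [Field K] :
    Fermat.Agent.C36.Unit.BaseCase.two.s K =
      baseFn K (Fermat.Agent.C36.Unit.BaseCase.two.s ℤ) :=
  (Fermat.Agent.C36.Unit.BaseCase.two.coeffMap_s (Int.castRingHom K)).symm

theorem line_prim {ϖ : R} (hϖ : Irreducible ϖ) (P : R[X])
    (h : aeval (sF L)⁻¹ P / algebraMap R (FF L 4) ϖ ∈ gaussO R 4) : ∀ i, ϖ ∣ P.coeff i := by
  have hsG : IsGInt R (Fermat.Agent.C36.Unit.BaseCase.two.s L) := by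
    rw [Line_s_eq_baseFn]
    exact isGInt_baseFn _
  have hsred : gredFun R (Fermat.Agent.C36.Unit.BaseCase.two.s L) =
      Fermat.Agent.C36.Unit.BaseCase.two.s (IsLocalRing.ResidueField R) := by
    rw [Line_s_eq_baseFn, gredFun_baseFn', ← Line_s_eq_baseFn]
  have hs0 : Fermat.Agent.C36.Unit.BaseCase.two.s (IsLocalRing.ResidueField R) ≠ 0 := fun h0 =>
    Fermat.Agent.C36.Unit.BaseCase.two.s_transcendental (IsLocalRing.ResidueField R)
      (h0 ▸ isAlgebraic_zero)
  have hxG : IsGInt R (Fermat.Agent.C36.Unit.BaseCase.two.s L)⁻¹ :=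
    hsG.inv (by rw [hsred]; exact hs0)
  have hxred : gredFun R (Fermat.Agent.C36.Unit.BaseCase.two.s L)⁻¹ =
      (Fermat.Agent.C36.Unit.BaseCase.two.s (IsLocalRing.ResidueField R))⁻¹ := by
    rw [gredFun_inv hsG (by rw [hsred]; exact hs0), hsred]
  have hcoe : (((sF L)⁻¹ : FF L 4) : LaurentSeries L) =
      (Fermat.Agent.C36.Unit.BaseCase.two.s L)⁻¹ := by
    rw [IntermediateField.coe_inv]
    rfl
  have hmem : aeval (sF L)⁻¹ P ∈ gaussO R 4 := by
    rw [mem_gaussO, coe_aeval, hcoe]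
    exact isGInt_evP hxG P
  have h0 := (div_mem_gaussO_iff 4 hϖ hmem).1 h
  rw [coe_aeval, hcoe, gredFun_evP hxG, hxred] at h0
  have htr : Transcendental (IsLocalRing.ResidueField R)
      (Fermat.Agent.C36.Unit.BaseCase.two.s (IsLocalRing.ResidueField R))⁻¹ :=
    S24.transcendental_inv
      (Fermat.Agent.C36.Unit.BaseCase.two.s_transcendental (IsLocalRing.ResidueField R))
  have hP0 : P.map (IsLocalRing.residue R) = 0 := (transcendental_iff.1 htr) _ h0
  intro i
  rw [← residue_eq_zero_iff_dvd hϖ, ← Polynomial.coeff_map, hP0, Polynomial.coeff_zero]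

theorem isLine (h2 : IsUnit ((2 : ℕ) : R)) {ϖ : R} (hϖ : Irreducible ϖ) :
    IsLine ϖ (gaussO R 4) (chart R ({(tF L)⁻¹} : Set (FF L 4))) (sF L)⁻¹ :=
  ⟨sinv_mem_chart h2, line_gen h2, line_prim hϖ⟩

end Fermat.Agent.S15.ATP
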