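import Fermat.Agent.S15.ATP.Conc.Tower
import Fermat.Agent.S15.ATP.Conc.Line
import Fermat.Agent.GT.Base
import Fermat.Agent.GT.W.Unram

/-!
# S15-ATP, concrete layer, file `Core`: THE CONCRETE CORE over a good field `L`
-/

set_option autoImplicit false
set_option synthInstance.maxHeartbeats 400000

noncomputable section

namespace Fermat.Agent.S15.ATP

open Fermat.Agent.GR Fermat.Agent.GR.E Fermat.Agent.GR.D.Vert Fermat.Agent.GS Fermat.Agent.GS.Inst
  Fermat.Agent.GT Fermat.Agent.GT.Brg Fermat.Agent.GT.Loc Fermat.Agent.GT.EMB ModularCurve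

/-- `p` is a uniformizer of `A ∩ L` (`GT.W.Unram_unramAt_of_inertFixed`, `GT.irreducible_natCast_of_unramAt`). -/
theorem irreducible_p {p : ℕ} (hp : p.Prime) {A : ValuationSubring Qb} (hA : A.LiesOverPrime p)
    {S : Finset Qb} {L : IntermediateField ℚ Qb} (hL : GoodField A S L) :
    Irreducible ((p : ℕ) : RL A L) := by
  have := hL.fin
  exact irreducible_natCast_of_unramAt hA hp.ne_zero
    (W.Unram_unramAt_of_inertFixed hp A hA L hL.inert)

/-- `2` is a unit of `A ∩ L`. -/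
theorem isUnit_two {p : ℕ} (hp : p.Prime) (hp2 : p ≠ 2) {A : ValuationSubring Qb}
    (hA : A.LiesOverPrime p) (L : IntermediateField ℚ Qb) : IsUnit ((2 : ℕ) : RL A L) := by
  have hcop : Nat.Coprime p 2 := (Nat.coprime_primes hp Nat.prime_two).2 hp2
  -- `a p + b 2 = 1` in `ℤ`
  have hb : IsCoprime ((p : ℕ) : ℤ) ((2 : ℕ) : ℤ) := Nat.isCoprime_iff_coprime.2 hcop
  obtain ⟨a, b, hab⟩ := hb
  by_contra hu
  have h2 : ((2 : ℕ) : RL A L) ∈ IsLocalRing.maximalIdeal (RL A L) :=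
    (IsLocalRing.mem_maximalIdeal _).2 hu
  have hpm : ((p : ℕ) : RL A L) ∈ IsLocalRing.maximalIdeal (RL A L) := by
    rw [IsLocalRing.mem_maximalIdeal, mem_nonunits_iff]
    intro hpu
    obtain ⟨v, hv⟩ := hpu.exists_right_inv
    have h1 : ((p : ℕ) : Qb) * algebraMap L Qb (v : L) = 1 := by
      have := congrArg (fun x : RL A L => algebraMap L Qb (x : L)) hv
      simpa using this
    have hvA : algebraMap L Qb (v : L) ∈ A := v.2
    have hpA : ((p : ℕ) : Qb) ∈ A.nonunits := hA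
    rw [ValuationSubring.mem_nonunits_iff_exists_mem_maximalIdeal] at hpA
    obtain ⟨hpA', hpm⟩ := hpA
    have : (1 : A) ∈ IsLocalRing.maximalIdeal A := by
      have h3 := Ideal.mul_mem_right (⟨_, hvA⟩ : A) _ hpm
      have h4 : (⟨((p : ℕ) : Qb), hpA'⟩ : A) * ⟨_, hvA⟩ = 1 := Subtype.ext h1
      rwa [h4] at h3
    exact (IsLocalRing.maximalIdeal.isMaximal A).ne_top ((Ideal.eq_top_iff_one _).2 this)
  have h1 : (1 : RL A L) ∈ IsLocalRing.maximalIdeal (RL A L) := by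
    have h3 : ((a : ℤ) : RL A L) * ((p : ℕ) : RL A L) + ((b : ℤ) : RL A L) * ((2 : ℕ) : RL A L) = 1 := by
      have := congrArg (fun x : ℤ => (x : RL A L)) hab
      push_cast at this ⊢
      exact this
    rw [← h3]
    exact add_mem (Ideal.mul_mem_left _ _ hpm) (Ideal.mul_mem_left _ _ h2)
  exact (IsLocalRing.maximalIdeal.isMaximal (RL A L)).ne_top ((Ideal.eq_top_iff_one _).2 h1)

theorem conc_core {p : ℕ} [NeZero p] [NeZero (p * 4)] (hp : p.Prime) (hp2 : p ≠ 2)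
    {A : ValuationSubring Qb} (hA : A.LiesOverPrime p) {S : Finset Qb}
    {L : IntermediateField ℚ Qb} [IsDiscreteValuationRing (RL A L)] (hL : GoodField A S L)
    (hreg : ∀ 𝔪 : Ideal (chartP (RL A L) p), 𝔪.IsMaximal →
        vert ((p : ℕ) : RL A L) (gaussO (RL A L) (p * 4)) (chartP (RL A L) p) ≤ 𝔪 →
        vert ((p : ℕ) : RL A L) (opp (gaussO (RL A L) (p * 4)) (wR (RL A L) p))
          (chartP (RL A L) p) ≤ 𝔪 →
        RegNode ((p : ℕ) : RL A L) (gaussO (RL A L) (p * 4))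
          (opp (gaussO (RL A L) (p * 4)) (wR (RL A L) p)) (chartP (RL A L) p) 𝔪)
    {n : ℕ} (hn : 0 < n) {y : FF L (p * 4)} (hy0 : y ≠ 0)
    (hy₁ : y ∈ gaussO (RL A L) (p * 4)) (hy₁' : y⁻¹ ∈ gaussO (RL A L) (p * 4))
    (hy₂ : wQ L p 4 y ∈ gaussO (RL A L) (p * 4)) (hy₂' : (wQ L p 4 y)⁻¹ ∈ gaussO (RL A L) (p * 4))
    (hdiv : DivisibleAtPlaces (RL A L) n y) :
    ∃ z : FF L (p * 4), z ≠ 0 ∧ ∃ c : RL A L, IsUnit c ∧
      (z ^ n * y - algebraMap (RL A L) (FF L (p * 4)) c) /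
        algebraMap (RL A L) (FF L (p * 4)) ((p : ℕ) : RL A L) ∈ gaussO (RL A L) (p * 4) := by
  have hϖ := irreducible_p hp hA hL
  obtain ⟨φ, T, Φ, Ct, hφ⟩ := exists_tower hp hp2 hA hL hϖ
  exact abs_core hϖ hp.one_lt T Φ Ct hφ hreg (isLine (isUnit_two hp hp2 hA L) hϖ) hn hy0 hy₁ hy₁'
    hy₂ (by rw [mem_opp, map_inv₀]; exact hy₂') hdiv

end Fermat.Agent.S15.ATP
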