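import Fermat.Agent.GS.Inst.Main
import Fermat.Agent.GT.Brg.Field
import Fermat.Agent.GT.Loc.Defs
import Fermat.Agent.C36.Unit.Case
import Fermat.Agent.S15.ATP.Abs.Main

/-!
# S15-ATP, concrete layer: definitions

`p` an odd prime (the level of S15), auxiliary level `p * 4`.  `L` a number field inside the inertia field of the place `A`
over `p`, `R = A ∩ L`.  `F1 = FF L 4 = L(s₄)`, `F = FF L (p * 4)`, base function of the chart: `t = h₂⁻¹`, coordinate of
the line: `x = s₄⁻¹` (`s₄² = h₂ (s₄ + 16)`, i.e. `16 x² + x = t`).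
-/

set_option autoImplicit false
set_option synthInstance.maxHeartbeats 400000

noncomputable section

namespace Fermat.Agent.S15.ATP

open Fermat.Agent.GR Fermat.Agent.GR.E Fermat.Agent.GR.D.Vert Fermat.Agent.GS Fermat.Agent.GS.Inst
  Fermat.Agent.GT Fermat.Agent.GT.Brg Fermat.Agent.GT.Loc Fermat.Agent.GT.EMB ModularCurve

/-- `h₂` at level `4`. -/
def tF (K : Type) [Field K] : FF K 4 :=
  ⟨baseFn K Fermat.Agent.Lib.Hauptmodul.h2, GR.D.Top.CaseH2_mem (by norm_num) K⟩

/-- `s₄` at level `4`. -/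
def sF (K : Type) [Field K] : FF K 4 :=
  Fermat.Agent.C36.Unit.BaseCase.two.sF K (N := 4) dvd_rfl

/-- the chart of level `p * 4` with base function `h₂⁻¹`. -/
abbrev chartP {L : Type} [Field L] (R : ValuationSubring L) (p : ℕ) :
    Subalgebra R (FF L (p * 4)) :=
  chart R ({algebraMap (FF L 4) (FF L (p * 4)) (tF L)⁻¹} : Set (FF L (p * 4)))

/-- the Atkin-Lehner involution `w_p` of `FF L (p * 4)`, as an `R`-algebra automorphism. -/
abbrev wR {L : Type} [Field L] (R : ValuationSubring L) (p : ℕ) [NeZero (p * 4)] :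
    FF L (p * 4) ≃ₐ[R] FF L (p * 4) :=
  (wQ L p 4).restrictScalars R

/-- INPUT FROM GT-LOC (N) (`GT.Loc.NodesReg`, helper61/helper63): over an unramified base all the nodes of the
chart of level `p * 4` are regular. -/
def RegHyp (p : ℕ) [NeZero (p * 4)] (A : ValuationSubring Qb) : Prop :=
  ∃ S : Finset Qb, (∀ x ∈ S, InertFixedElt A x) ∧
    ∀ (L : IntermediateField ℚ Qb) [IsDiscreteValuationRing (RL A L)], GoodField A S L →
      ∀ 𝔪 : Ideal (chartP (RL A L) p), 𝔪.IsMaximal →
        vert ((p : ℕ) : RL A L) (gaussO (RL A L) (p * 4)) (chartP (RL A L) p) ≤ 𝔪 →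
        vert ((p : ℕ) : RL A L) (opp (gaussO (RL A L) (p * 4)) (wR (RL A L) p))
          (chartP (RL A L) p) ≤ 𝔪 →
        RegNode ((p : ℕ) : RL A L) (gaussO (RL A L) (p * 4))
          (opp (gaussO (RL A L) (p * 4)) (wR (RL A L) p)) (chartP (RL A L) p) 𝔪

end Fermat.Agent.S15.ATP
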