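import Fermat.Agent.S15.ATP.Conc.Defs
import Fermat.Agent.GT.Loc.N1Conc
import Fermat.Agent.GT.W.Unram
import Fermat.Agent.GT.Base

/-!
# S15-ATP, concrete layer, file `Reg`: the hypothesis `RegHyp` holds (adapter to GT-LOC `N1C_node_good`)
-/

set_option autoImplicit false
set_option synthInstance.maxHeartbeats 400000

noncomputable section

namespace Fermat.Agent.S15.ATP

open Fermat.Agent.GR Fermat.Agent.GR.E Fermat.Agent.GR.D.Vert Fermat.Agent.GS Fermat.Agent.GS.Inst
  Fermat.Agent.GT Fermat.Agent.GT.Brg Fermat.Agent.GT.Loc Fermat.Agent.GT.EMB ModularCurve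
  Fermat.Agent.C36.Unit

theorem Reg_tF_eq (L : Type) [Field L] :
    tF L = BaseCase.two.tF L (N := 4) (by decide) :=
  Subtype.ext (GR.D.Top.CaseH2_baseFn L)

set_option maxHeartbeats 2000000 in
/-- `RegHyp` holds: all the nodes of the chart of level `p * 4` are regular over a good field. -/
theorem regHyp {p : ℕ} [NeZero p] [NeZero (p * 4)] (hp : p.Prime) (hp2 : p ≠ 2)
    {A : ValuationSubring Qb} (hA : A.LiesOverPrime p) : RegHyp p A := by
  refine ⟨∅, by simp, fun L _ hL => ?_⟩
  have := hL.fin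
  have hϖ : Irreducible ((p : ℕ) : RL A L) :=
    irreducible_natCast_of_unramAt hA hp.ne_zero
      (W.Unram_unramAt_of_inertFixed hp A hA L hL.inert)
  have hpN : ¬ p ∣ 4 := by
    intro h
    have h2 : p ∣ 2 := by
      have : p ∣ 2 ^ 2 := by simpa using h
      exact hp.dvd_of_dvd_pow this
    exact hp2 ((Nat.prime_dvd_prime_iff_eq hp Nat.prime_two).1 h2)
  have key := N1C_node_good BaseCase.two hp hpN (by decide) (by decide) A hA hL hϖ rfl (-1)
    (Or.inr rfl)
  have e : (tF L)⁻¹ = BaseCase.two.tF L (N := 4) (by decide) ^ (-1 : ℤ) := by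
    rw [zpow_neg_one, Reg_tF_eq]
  unfold chartP
  rw [e]
  exact key

end Fermat.Agent.S15.ATP
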