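import Fermat.Agent.S15.ATP.Conc.Defs

/-!
# S15-ATP, concrete layer, file `Tower`: the `GS/Tower` structures for `FF L 4 ⊆ FF L (p * 4)`, chart `h₂⁻¹`

Copy of the first lines of `GS.Inst.nodalModelData` / `GS.Inst.hasNodalModel_of` with `q = p`, `N1 = 4`, `r = 2`,
`H = Lib.Hauptmodul.h2`, `w = GT.EMB.wQ L p 4`:
* `ι := ι₀.comp (algebraMap L Qb)`, `ι₀` from `S24.nonempty_iotaC`; `hw : IsWQ L p 4 (wQ L p 4) := GS.Inst.isWQ_wQ ι hp hp4`;
* `T := towerData ι hp hp4 hϖ (isWq_of_isWQ ι hp hp4 hw)`; instances `D.Top.charP_residueField A p hp hA L`,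
  `Algebra.IsAlgebraic L Qb`;
* `M1` from `(D.Top.hasModel_h2 4 (by norm_num) p hp hp4 A hA).model L inferInstance`;
  `Ct := (towerChart_baseFn isHaupt_h2 hp hp4 (by norm_num) _ M1 hw hϖ).2`;
* `σ` from `GT.Brg.exists_frobLift hp hA hL` (as a `RingEquiv`: `σ.toRingEquiv`), `Φ := towerFrob ι hp hp4 hϖ hw σ ..`,
  `φ := mapFFEquiv σ (p * 4)`; `hφ`: `map_inv₀`, `mapFFEquiv_baseFn`, `Subtype.ext (coe_algebraMap_FF _)`.
-/

set_option autoImplicit false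
set_option synthInstance.maxHeartbeats 400000

noncomputable section

namespace Fermat.Agent.S15.ATP

open Fermat.Agent.GR Fermat.Agent.GR.E Fermat.Agent.GR.D.Vert Fermat.Agent.GS Fermat.Agent.GS.Inst
  Fermat.Agent.GT Fermat.Agent.GT.Brg Fermat.Agent.GT.Loc Fermat.Agent.GT.EMB ModularCurve

theorem exists_tower {p : ℕ} [NeZero p] [NeZero (p * 4)] (hp : p.Prime) (hp2 : p ≠ 2)
    {A : ValuationSubring Qb} (hA : A.LiesOverPrime p) {S : Finset Qb}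
    {L : IntermediateField ℚ Qb} [IsDiscreteValuationRing (RL A L)] (hL : GoodField A S L)
    {ϖ : RL A L} (hϖ : Irreducible ϖ) :
    ∃ φ : FF L (p * 4) ≃+* FF L (p * 4),
      TowerData ϖ (gaussO (RL A L) 4) (gaussO (RL A L) (p * 4)) (wR (RL A L) p) ∧
      TowerFrob ϖ (gaussO (RL A L) 4) (gaussO (RL A L) (p * 4)) (wR (RL A L) p) p φ ∧
      TowerChart ϖ (gaussO (RL A L) 4) (gaussO (RL A L) (p * 4)) (wR (RL A L) p) p (tF L)⁻¹ ∧
      φ (algebraMap (FF L 4) (FF L (p * 4)) (tF L)⁻¹) =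
        algebraMap (FF L 4) (FF L (p * 4)) (tF L)⁻¹ := by
  have := hL.fin
  have hp4 : ¬ p ∣ 4 := by
    intro h
    have h2 : p ∣ 2 ^ 2 := by norm_num; exact h
    exact hp2 ((Nat.prime_dvd_prime_iff_eq hp Nat.prime_two).1 (hp.dvd_of_dvd_pow h2))
  have : CharP (IsLocalRing.ResidueField (RL A L)) p := GR.D.Top.charP_residueField A p hp hA L
  have : Algebra.IsAlgebraic ℚ Qb := AlgebraicClosure.isAlgebraic ℚ
  have : Algebra.IsAlgebraic L Qb := Algebra.IsAlgebraic.tower_top (K := ℚ) L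
  obtain ⟨ι₀⟩ : Nonempty (Qb →+* ℂ) := S24.nonempty_iotaC
  have hw : IsWQ L p 4 (wQ L p 4) := GS.Inst.isWQ_wQ (ι₀.comp (algebraMap L Qb)) hp hp4
  obtain ⟨σ, hσ, hfr⟩ := exists_frobLift hp hA hL
  have hM := GR.D.Top.hasModel_h2 4 (by norm_num) p hp hp4 A hA
  obtain ⟨𝒪, M1⟩ := hM.model L inferInstance
  refine ⟨mapFFEquiv (σ : L ≃+* L) (p * 4),
    towerData (ι₀.comp (algebraMap L Qb)) hp hp4 hϖ
      (isWq_of_isWQ (ι₀.comp (algebraMap L Qb)) hp hp4 hw),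
    towerFrob (ι₀.comp (algebraMap L Qb)) hp hp4 hϖ hw (σ : L ≃+* L) (fun x => (hσ x).symm) hfr,
    (towerChart_baseFn isHaupt_h2 hp hp4 (by norm_num) (hM.mem L) M1 hw hϖ).2, ?_⟩
  rw [Frob_map_algebraMap, map_inv₀]
  congr 2
  exact mapFFEquiv_baseFn 4 (σ : L ≃+* L) _ _

end Fermat.Agent.S15.ATP
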